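import Fermat.Agent.ZT.Loc
import Fermat.Agent.Frob.QbarInst
import Fermat.Prelude.Def_FLTPrelim_Ramification

/-!
# Theorem Z, step 2: deformations in characteristic two are dihedral
-/

set_option autoImplicit false

namespace Fermat.Agent.ZT

open Matrix
open scoped Pointwise

noncomputable section

/-- the absolute Galois group of `ℚ` -/
abbrev GQ : Type := AlgebraicClosure ℚ ≃ₐ[ℚ] AlgebraicClosure ℚ

/-- Selmer cocycles with values in `V = 𝔽₂²` on which `G_ℚ` acts through `r`: unramified outside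
`T`, and at the places over `T` cohomologous to a cocycle with values in the invariants. -/
structure IsXi (r : GQ →* GL (Fin 2) (ZMod 2)) (T : Finset ℕ) (ξ : GQ → Fin 2 → ZMod 2) :
    Prop where
  coc : ∀ g h, ξ (g * h) = ξ g + (r g).1.mulVec (ξ h)
  lev : ∃ E : IntermediateField ℚ (AlgebraicClosure ℚ), FiniteDimensional ℚ E ∧
    ∀ g ∈ E.fixingSubgroup, ξ g = 0
  unr : ∀ ℓ : ℕ, ℓ.Prime → ℓ ∉ T → ∀ P : ValuationSubring (AlgebraicClosure ℚ),
    P.LiesOverPrime ℓ → ∀ g ∈ P.inertiaSubgroupIn ℚ, ξ g = 0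
  loc : ∀ v ∈ T, ∀ P : ValuationSubring (AlgebraicClosure ℚ), P.LiesOverPrime v →
    ∃ x : Fin 2 → ZMod 2, ∀ g ∈ P.decompositionSubgroup ℚ, ∀ h ∈ P.decompositionSubgroup ℚ,
      (r h).1.mulVec (ξ g + (r g).1.mulVec x + x) = ξ g + (r g).1.mulVec x + x

/-- The deformations of type `T` to an `𝔽₂`-algebra. -/
structure IsDef (r : GQ →* GL (Fin 2) (ZMod 2)) (T : Finset ℕ) {A : Type*} [CommRing A]
    (π : A →+* ZMod 2) (ρ : GQ →* GL (Fin 2) A) : Prop where
  red : ∀ g i j, π ((ρ g).1 i j) = (r g).1 i j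
  lev : ∃ E : IntermediateField ℚ (AlgebraicClosure ℚ), FiniteDimensional ℚ E ∧
    ∀ g ∈ E.fixingSubgroup, ρ g = 1
  unr : ∀ ℓ : ℕ, ℓ.Prime → ℓ ∉ T → ∀ P : ValuationSubring (AlgebraicClosure ℚ),
    P.LiesOverPrime ℓ → ∀ g ∈ P.inertiaSubgroupIn ℚ, ρ g = 1
  loc : ∀ v ∈ T, ∀ P : ValuationSubring (AlgebraicClosure ℚ), P.LiesOverPrime v →
    ∃ (u : Fin 2 → A) (z : GQ → A), (IsUnit (u 0) ∨ IsUnit (u 1)) ∧
      (∀ g ∈ P.decompositionSubgroup ℚ, (ρ g).1.mulVec u = z g • u ∧ (ρ g).1.det = z g ^ 2) ∧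
      ∀ g ∈ P.inertiaSubgroupIn ℚ, z g = 1

section phi

variable {A : Type*} [CommRing A] {π : A →+* ZMod 2} {I : Ideal A} {φ : A → ZMod 2}

theorem IsFun.zero (hφ : IsFun π I φ) : φ 0 = 0 := by
  have := hφ.mul 0 0 I.zero_mem
  rwa [zero_mul, map_zero, zero_mul] at this

theorem phi_mul_left (hφ : IsFun π I φ) (a : M2 A) {X : M2 A} (hX : ∀ i j, X i j ∈ I) (i j) :
    φ ((a * X) i j) = (a.map π * X.map φ) i j := by
  rw [Matrix.mul_apply, Matrix.mul_apply, Fin.sum_univ_two, Fin.sum_univ_two,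
    hφ.add _ (I.mul_mem_left _ (hX _ _)) _ (I.mul_mem_left _ (hX _ _)), hφ.mul _ _ (hX _ _),
    hφ.mul _ _ (hX _ _)]
  rfl

theorem phi_mul_right (hφ : IsFun π I φ) (a : M2 A) {X : M2 A} (hX : ∀ i j, X i j ∈ I) (i j) :
    φ ((X * a) i j) = (X.map φ * a.map π) i j := by
  rw [Matrix.mul_apply, Matrix.mul_apply, Fin.sum_univ_two, Fin.sum_univ_two,
    hφ.add _ (I.mul_mem_right _ (hX _ _)) _ (I.mul_mem_right _ (hX _ _)), mul_comm (X i 0),
    mul_comm (X i 1), hφ.mul _ _ (hX _ _), hφ.mul _ _ (hX _ _), mul_comm (π _), mul_comm (π _)]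
  rfl

theorem mem_mul_left (a : M2 A) {X : M2 A} (hX : ∀ i j, X i j ∈ I) (i j) : (a * X) i j ∈ I := by
  rw [Matrix.mul_apply]
  exact I.sum_mem fun k _ => I.mul_mem_left _ (hX _ _)

theorem mem_mul_right (a : M2 A) {X : M2 A} (hX : ∀ i j, X i j ∈ I) (i j) : (X * a) i j ∈ I := by
  rw [Matrix.mul_apply]
  exact I.sum_mem fun k _ => I.mul_mem_right _ (hX _ _)

end phi

section main

variable (r : GQ →* GL (Fin 2) (ZMod 2)) (g₃ : GQ)

/-- the sign of `r g` (relative to the order three element `r g₃`) -/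
def ee (g : GQ) : ZMod 2 := ((r g).1 * (r g₃).1 * ((r g)⁻¹).1 - (r g₃).1) 0 0

variable {r g₃} (hr : (r g₃).1 * (r g₃).1 + (r g₃).1 + 1 = 0)

theorem conj_sq {R : Type*} [Ring R] {m n w : R} (hmn : n * m = 1) (hnm : m * n = 1)
    (hw : w * w + w + 1 = 0) : (m * w * n) * (m * w * n) + m * w * n + 1 = 0 := by
  have h1 : (m * w * n) * (m * w * n) + m * w * n + 1 = m * (w * w + w + 1) * n := by
    have h2 : (m * w * n) * (m * w * n) = m * (w * w) * n := by
      calc (m * w * n) * (m * w * n) = m * w * (n * m) * w * n := by noncomm_ring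
        _ = m * (w * w) * n := by rw [hmn]; noncomm_ring
    rw [h2, mul_add, mul_add, add_mul, add_mul, mul_one, hnm]
  rw [h1, hw, mul_zero, zero_mul]

include hr in
theorem ee_spec (g : GQ) : (r g).1 * (r g₃).1 * ((r g)⁻¹).1 = (r g₃).1 + ee r g₃ g • 1 := by
  have h1 := conj_sq (Units.inv_mul (r g)) (Units.mul_inv (r g)) hr
  obtain ⟨e, he⟩ := order_three_add h1 hr
  have h2 : ee r g₃ g = e := by
    unfold ee
    have h3 : (r g).1 * (r g₃).1 * ((r g)⁻¹).1 - (r g₃).1 = e • 1 := by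
      rw [sub_eq_iff_eq_add, add_comm]
      exact he
    rw [h3]
    simp
  rw [h2]
  exact he

include hr in
theorem ee_mul (g h : GQ) : ee r g₃ (g * h) = ee r g₃ g + ee r g₃ h := by
  have h1 := ee_spec hr (g * h)
  have h2 : (r (g * h)).1 * (r g₃).1 * ((r (g * h))⁻¹).1 =
      (r g).1 * ((r h).1 * (r g₃).1 * ((r h)⁻¹).1) * ((r g)⁻¹).1 := by
    rw [map_mul, _root_.mul_inv_rev, Units.val_mul, Units.val_mul]
    noncomm_ring
  rw [h2, ee_spec hr h, mul_add, add_mul, ee_spec hr g, mul_smul_comm, smul_mul_assoc, mul_one,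
    Units.mul_inv] at h1
  have h3 := congrFun (congrFun h1 0) 0
  simp only [Matrix.add_apply, Matrix.smul_apply, one00, smul_eq_mul, mul_one] at h3
  have h4 : ((r g₃).1 0 0 + (ee r g₃ g + ee r g₃ h)) = (r g₃).1 0 0 + ee r g₃ (g * h) := by
    rw [← add_assoc]
    exact h3
  exact (add_left_cancel h4).symm

variable {A : Type*} [CommRing A] [Algebra (ZMod 2) A] {π : A →+* ZMod 2} {ρ : GQ →* GL (Fin 2) A}

variable (r g₃ ρ) in
/-- the defect of `ρ` from being dihedral -/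
def DD (g : GQ) : M2 A :=
  (ρ g).1 * (ρ g₃).1 * ((ρ g)⁻¹).1 - (ρ g₃).1 - algebraMap (ZMod 2) A (ee r g₃ g) • 1

include hr in
theorem DD_mul (g h : GQ) : DD r g₃ ρ (g * h) =
    DD r g₃ ρ g + (ρ g).1 * DD r g₃ ρ h * ((ρ g)⁻¹).1 := by
  have h2 : (ρ (g * h)).1 * (ρ g₃).1 * ((ρ (g * h))⁻¹).1 =
      (ρ g).1 * ((ρ h).1 * (ρ g₃).1 * ((ρ h)⁻¹).1) * ((ρ g)⁻¹).1 := by
    rw [map_mul, _root_.mul_inv_rev, Units.val_mul, Units.val_mul]
    noncomm_ring
  unfold DD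
  rw [h2, ee_mul hr, map_add, add_smul, mul_sub, mul_sub, sub_mul, sub_mul, mul_smul_comm,
    smul_mul_assoc, mul_one, Units.mul_inv]
  abel

theorem DD_sq (hw : (ρ g₃).1 * (ρ g₃).1 + (ρ g₃).1 + 1 = 0) (g : GQ) :
    (ρ g₃).1 * DD r g₃ ρ g + DD r g₃ ρ g * (ρ g₃).1 + DD r g₃ ρ g +
      DD r g₃ ρ g * DD r g₃ ρ g = 0 := by
  have h2 := two_eq_zero A
  have hX := conj_sq (Units.inv_mul (ρ g)) (Units.mul_inv (ρ g)) hw
  set c := algebraMap (ZMod 2) A (ee r g₃ g) with hc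
  have hcc : c * c + c = 0 := by
    have : ∀ e : ZMod 2, e * e + e = 0 := by decide
    rw [hc, ← map_mul, ← map_add, this, map_zero]
  have hXD : (ρ g).1 * (ρ g₃).1 * ((ρ g)⁻¹).1 = DD r g₃ ρ g + (ρ g₃).1 + c • 1 := by
    unfold DD
    abel
  rw [hXD] at hX
  set D := DD r g₃ ρ g
  set w := (ρ g₃).1
  rw [eq_iff] at hX hw ⊢
  simp only [Matrix.add_apply, mul00, mul01, mul10, mul11, Matrix.zero_apply, Matrix.smul_apply,
    smul_eq_mul, one00, one01, one10, one11] at hX hw ⊢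
  obtain ⟨x0, x1, x2, x3⟩ := hX
  obtain ⟨w0, w1, w2, w3⟩ := hw
  refine ⟨?_, ?_, ?_, ?_⟩
  · linear_combination x0 - w0 - hcc - c * (D 0 0 + w 0 0) * h2
  · linear_combination x1 - w1 - c * (D 0 1 + w 0 1) * h2
  · linear_combination x2 - w2 - c * (D 1 0 + w 1 0) * h2
  · linear_combination x3 - w3 - hcc - c * (D 1 1 + w 1 1) * h2

theorem red_map {T : Finset ℕ} (hρ : IsDef r T π ρ) (g : GQ) : (ρ g).1.map π = (r g).1 := by
  ext i j
  exact hρ.red g i j

theorem red_inv_map {T : Finset ℕ} (hρ : IsDef r T π ρ) (g : GQ) :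
    ((ρ g)⁻¹).1.map π = ((r g)⁻¹).1 := by
  rw [← map_inv, ← map_inv]
  exact red_map hρ g⁻¹

include hr in
theorem pi_DD {T : Finset ℕ} (hρ : IsDef r T π ρ) (g : GQ) (i j) : π (DD r g₃ ρ g i j) = 0 := by
  have h1 : (DD r g₃ ρ g).map π = 0 := by
    unfold DD
    have h2 : ((ρ g).1 * (ρ g₃).1 * ((ρ g)⁻¹).1 - (ρ g₃).1 -
        algebraMap (ZMod 2) A (ee r g₃ g) • (1 : M2 A)).map π =
        (ρ g).1.map π * (ρ g₃).1.map π * ((ρ g)⁻¹).1.map π - (ρ g₃).1.map π -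
        ee r g₃ g • (1 : M2 (ZMod 2)) := by
      rw [Matrix.map_sub π (_root_.map_sub π), Matrix.map_sub π (_root_.map_sub π), Matrix.map_mul, Matrix.map_mul]
      congr 1
      ext i j
      rw [Matrix.map_apply, Matrix.smul_apply, Matrix.smul_apply, smul_eq_mul, map_mul,
        smul_eq_mul]
      have h3 : π (algebraMap (ZMod 2) A (ee r g₃ g)) = ee r g₃ g := by
        have : π.comp (algebraMap (ZMod 2) A) = RingHom.id _ := Subsingleton.elim _ _
        exact congrFun (congrArg DFunLike.coe this) _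
      rw [h3]
      congr 1
      by_cases hij : i = j
      · subst hij; simp
      · rw [Matrix.one_apply_ne hij, Matrix.one_apply_ne hij, map_zero]
    rw [h2, red_map hρ, red_map hρ, red_inv_map hρ, ee_spec hr]
    abel
  exact congrFun (congrFun h1 i) j

end main

end

end Fermat.Agent.ZT
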