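import Fermat.Agent.ZT.Dihedral

/-!
# Theorem Z, step 2: deformations in characteristic two are dihedral, second part
-/

set_option autoImplicit false

namespace Fermat.Agent.ZT

open Matrix
open scoped Pointwise

noncomputable section

variable {r : GQ →* GL (Fin 2) (ZMod 2)} {g₃ : GQ}
  (hr : (r g₃).1 * (r g₃).1 + (r g₃).1 + 1 = 0) {A : Type*} [CommRing A] [Algebra (ZMod 2) A]
  [IsLocalRing A] {π : A →+* ZMod 2} [IsLocalHom π] {ρ : GQ →* GL (Fin 2) A} {T : Finset ℕ}
  (hρ : IsDef r T π ρ)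

theorem isUnit_iff (a : A) : IsUnit a ↔ π a ≠ 0 := by
  constructor
  · intro h
    exact (h.map π).ne_zero
  · intro h
    exact (isUnit_map_iff π a).1 (IsUnit.mk0 _ h)

omit [IsLocalRing A] [IsLocalHom π] in
theorem pi_alg (e : ZMod 2) : π (algebraMap (ZMod 2) A e) = e := by
  have : π.comp (algebraMap (ZMod 2) A) = RingHom.id _ := Subsingleton.elim _ _
  exact congrFun (congrArg DFunLike.coe this) _

/-- trace of an element of order three -/
theorem trace_one {w : M2 A} (hw : w * w + w + 1 = 0)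
    (hwb : (w.map π) * (w.map π) + (w.map π) + 1 = 0) : w 0 0 + w 1 1 = 1 := by
  have h2 := two_eq_zero A
  have hu : IsUnit (w 0 1) := by
    rw [isUnit_iff (π := π)]
    have h1 : π (w 0 1) = (w.map π) 0 1 := rfl
    rw [h1]
    rcases order_three hwb with h | h <;> rw [h] <;> decide
  rw [eq_iff] at hw
  obtain ⟨-, h01, -, -⟩ := hw
  rw [Matrix.add_apply, Matrix.add_apply, mul01, one01, Matrix.zero_apply] at h01
  have h3 : w 0 1 * (w 0 0 + w 1 1 + 1) = 0 := by linear_combination h01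
  have h4 := (hu.mul_right_eq_zero).1 h3
  linear_combination h4 - h2

omit [IsLocalRing A] [IsLocalHom π] in
include hρ in
theorem w_map : ((ρ g₃).1.map π) = (r g₃).1 := red_map hρ g₃

theorem tt_unit {u : Fin 2 → A} (hu : IsUnit (u 0) ∨ IsUnit (u 1)) {w : M2 A}
    (hwb : (w.map π) * (w.map π) + (w.map π) + 1 = 0) : π (tt u w) = 1 := by
  have h1 := trace_nil hwb (u0 := π (u 0)) (u1 := π (u 1)) (by
    rw [← isUnit_iff, ← isUnit_iff]; exact hu)
  unfold tt
  simp only [map_add, map_mul]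
  exact h1

include hr hρ in
/-- Local shape of the defect. -/
theorem loc_shape (hw : (ρ g₃).1 * (ρ g₃).1 + (ρ g₃).1 + 1 = 0) {g : GQ} {u : Fin 2 → A}
    (hu : IsUnit (u 0) ∨ IsUnit (u 1)) {z : A}
    (h : (ρ g).1.mulVec u = z • u ∧ (ρ g).1.det = z ^ 2) : ∃ f : A,
    (ρ g).1 = z • (1 + f • NN u) ∧ IsUnit z ∧
    DD r g₃ ρ g = (f + f * f * tt u (ρ g₃).1) • NN u +
      (f * tt u (ρ g₃).1 + algebraMap (ZMod 2) A (ee r g₃ g)) • (1 : M2 A) := by
  have hdet : IsUnit (ρ g).1.det := (Matrix.isUnit_iff_isUnit_det _).1 (ρ g).isUnit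
  obtain ⟨hz, f, hf⟩ := loc_form (two_eq_zero A) hdet hu h.1 h.2
  refine ⟨f, hf, hz, ?_⟩
  have hwb : ((ρ g₃).1.map π) * ((ρ g₃).1.map π) + ((ρ g₃).1.map π) + 1 = 0 := by
    rw [w_map hρ]; exact hr
  exact loc_D (two_eq_zero A) (trace_one hw hwb) (Units.mul_inv (ρ g)) hf

include hr hρ in
/-- The Selmer cocycles attached to a deformation. -/
theorem isXi_phi (hw : (ρ g₃).1 * (ρ g₃).1 + (ρ g₃).1 + 1 = 0)
    {I : Ideal A} (hI : ∀ g i j, DD r g₃ ρ g i j ∈ I) (hIm : ∀ x ∈ I, π x = 0) {φ : A → ZMod 2}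
    (hφ : IsFun π I φ) :
    (∀ g, (DD r g₃ ρ g).map φ 0 0 = φ (DD r g₃ ρ g 0 1) + φ (DD r g₃ ρ g 1 0) ∧
      (DD r g₃ ρ g).map φ 1 1 = φ (DD r g₃ ρ g 0 1) + φ (DD r g₃ ρ g 1 0)) ∧
    IsXi r T (fun g => ![φ (DD r g₃ ρ g 0 1), φ (DD r g₃ ρ g 1 0)]) := by
  have h2 := two_eq_zero A
  have hwb : ((ρ g₃).1.map π) * ((ρ g₃).1.map π) + ((ρ g₃).1.map π) + 1 = 0 := by
    rw [w_map hρ]; exact hr
  have hoff : ∀ g, (DD r g₃ ρ g).map φ 0 0 = (DD r g₃ ρ g).map φ 0 1 + (DD r g₃ ρ g).map φ 1 0 ∧
      (DD r g₃ ρ g).map φ 1 1 = (DD r g₃ ρ g).map φ 0 1 + (DD r g₃ ρ g).map φ 1 0 := by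
    intro g
    apply off_of_comm hr
    have h1 := DD_sq (r := r) hw g
    have hsq : ∀ i j, φ ((DD r g₃ ρ g * DD r g₃ ρ g) i j) = 0 := by
      intro i j
      rw [phi_mul_left hφ _ (hI g), Matrix.mul_apply, Fin.sum_univ_two]
      have a0 : (DD r g₃ ρ g).map π i 0 = 0 := hIm _ (hI g i 0)
      have a1 : (DD r g₃ ρ g).map π i 1 = 0 := hIm _ (hI g i 1)
      rw [a0, a1]
      simp
    ext i j
    have h3 := congrFun (congrFun h1 i) j
    rw [Matrix.add_apply, Matrix.add_apply, Matrix.add_apply, Matrix.zero_apply] at h3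
    have h4 := congrArg φ h3
    have m1 := mem_mul_left (ρ g₃).1 (hI g) i j
    have m2 := mem_mul_right (ρ g₃).1 (hI g) i j
    have m3 := mem_mul_left (DD r g₃ ρ g) (hI g) i j
    rw [hφ.add _ (I.add_mem (I.add_mem m1 m2) (hI g i j)) _ m3,
      hφ.add _ (I.add_mem m1 m2) _ (hI g i j), hφ.add _ m1 _ m2, hsq, add_zero, hφ.zero,
      phi_mul_left hφ _ (hI g), phi_mul_right hφ _ (hI g), w_map hρ] at h4
    rw [Matrix.add_apply, Matrix.add_apply, Matrix.zero_apply]
    exact h4
  refine ⟨hoff, ?_⟩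
  constructor
  · intro g h
    have h1 : (DD r g₃ ρ (g * h)).map φ = (DD r g₃ ρ g).map φ +
        (r g).1 * (DD r g₃ ρ h).map φ * ((r g)⁻¹).1 := by
      ext i j
      rw [Matrix.map_apply, DD_mul hr, Matrix.add_apply, hφ.add _ (hI g i j) _
        (mem_mul_right _ (mem_mul_left _ (hI h)) i j), phi_mul_right hφ _ (mem_mul_left _ (hI h)),
        Matrix.add_apply]
      congr 1
      have h5 : ((ρ g).1 * DD r g₃ ρ h).map φ = (r g).1 * (DD r g₃ ρ h).map φ := by
        ext i j
        rw [Matrix.map_apply, phi_mul_left hφ _ (hI h), red_map hρ]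
      rw [red_inv_map hρ, h5]
    obtain ⟨o0, o1⟩ := hoff h
    obtain ⟨c0, c1⟩ := conj_off (Units.mul_inv (r g)) o0 o1
    have e0 := congrFun (congrFun h1 0) 1
    have e1 := congrFun (congrFun h1 1) 0
    rw [Matrix.add_apply, c0] at e0
    rw [Matrix.add_apply, c1] at e1
    funext i
    rw [Pi.add_apply, Matrix.mulVec, dotProduct, Fin.sum_univ_two]
    fin_cases i
    · exact e0
    · exact e1
  · obtain ⟨E, hE, h⟩ := hρ.lev
    refine ⟨E, hE, fun g hg => ?_⟩
    have h1 : DD r g₃ ρ g = 0 := by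
      have hrg : r g = 1 := by
        apply Units.ext
        rw [← red_map hρ g, h g hg]
        ext i j
        rw [Matrix.map_apply, Units.val_one]
        by_cases hij : i = j
        · subst hij; simp
        · rw [Matrix.one_apply_ne hij, Units.val_one, Matrix.one_apply_ne hij, map_zero]
      unfold DD ee
      rw [h g hg, hrg]
      simp
    rw [h1]
    funext i
    fin_cases i
    · exact hφ.zero
    · exact hφ.zero
  · intro ℓ hℓ hℓT P hP g hg
    have h := hρ.unr ℓ hℓ hℓT P hP g hg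
    have h1 : DD r g₃ ρ g = 0 := by
      have hrg : r g = 1 := by
        apply Units.ext
        rw [← red_map hρ g, h]
        ext i j
        rw [Matrix.map_apply, Units.val_one]
        by_cases hij : i = j
        · subst hij; simp
        · rw [Matrix.one_apply_ne hij, Units.val_one, Matrix.one_apply_ne hij, map_zero]
      unfold DD ee
      rw [h, hrg]
      simp
    rw [h1]
    funext i
    fin_cases i
    · exact hφ.zero
    · exact hφ.zero
  · intro v hv P hP
    obtain ⟨u, z, hu, hz, -⟩ := hρ.loc v hv P hP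
    refine ⟨0, fun g hg h hh => ?_⟩
    rw [Matrix.mulVec_zero, add_zero, add_zero]
    -- the values are multiples of the residual line
    have key : ∃ c : ZMod 2, (![φ (DD r g₃ ρ g 0 1), φ (DD r g₃ ρ g 1 0)] : Fin 2 → ZMod 2) =
        c • (fun i => π (u i)) := by
      obtain ⟨f, -, -, hD⟩ := loc_shape hr hρ hw hu (hz g hg)
      set τ := tt u (ρ g₃).1 with hτ
      have hτ1 : π τ = 1 := tt_unit hu hwb
      set e := algebraMap (ZMod 2) A (ee r g₃ g) with he
      have hee : e * e + e = 0 := by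
        have : ∀ e : ZMod 2, e * e + e = 0 := by decide
        rw [he, ← map_mul, ← map_add, this, map_zero]
      have d01 : DD r g₃ ρ g 0 1 = (u 0 * u 0) * (f + f * f * τ) := by
        rw [hD, Matrix.add_apply, Matrix.smul_apply, Matrix.smul_apply, NN01, one01, smul_eq_mul,
          smul_eq_mul]
        ring
      have d10 : DD r g₃ ρ g 1 0 = (u 1 * u 1) * (f + f * f * τ) := by
        rw [hD, Matrix.add_apply, Matrix.smul_apply, Matrix.smul_apply, NN10, one10, smul_eq_mul,
          smul_eq_mul]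
        ring
      have d00 : DD r g₃ ρ g 0 0 = (u 0 * u 1) * (f + f * f * τ) + (f * τ + e) := by
        rw [hD, Matrix.add_apply, Matrix.smul_apply, Matrix.smul_apply, NN00, one00, smul_eq_mul,
          smul_eq_mul]
        ring
      have hm1 : f + f * f * τ ∈ I := by
        rcases hu with hu | hu
        · have h3 := hI g 0 1
          rw [d01] at h3
          obtain ⟨v, hv⟩ := (hu.mul hu).exists_left_inv
          have := I.mul_mem_left v h3
          rwa [← mul_assoc, hv, one_mul] at this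
        · have h3 := hI g 1 0
          rw [d10] at h3
          obtain ⟨v, hv⟩ := (hu.mul hu).exists_left_inv
          have := I.mul_mem_left v h3
          rwa [← mul_assoc, hv, one_mul] at this
      have hm2 : f * τ + e ∈ I := by
        have h3 := hI g 0 0
        rw [d00] at h3
        exact (I.add_mem_iff_right (I.mul_mem_left _ hm1)).1 h3
      refine ⟨φ (f + f * f * τ), ?_⟩
      rw [d01, d10, hφ.mul _ _ hm1, hφ.mul _ _ hm1]
      have hsq : ∀ x : ZMod 2, x * x = x := by decide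
      funext i
      fin_cases i
      · show π (u 0 * u 0) * φ (f + f * f * τ) = φ (f + f * f * τ) * π (u 0)
        rw [map_mul, hsq, mul_comm]
      · show π (u 1 * u 1) * φ (f + f * f * τ) = φ (f + f * f * τ) * π (u 1)
        rw [map_mul, hsq, mul_comm]
    obtain ⟨c, hc⟩ := key
    rw [hc, Matrix.mulVec_smul]
    congr 1
    -- the residual line is fixed
    have hdet : IsUnit (ρ h).1.det := (Matrix.isUnit_iff_isUnit_det _).1 (ρ h).isUnit
    have hzu : IsUnit (z h) := by
      rw [(hz h hh).2] at hdet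
      exact (isUnit_pow_iff two_ne_zero).1 hdet
    have hz1 : π (z h) = 1 := by
      rcases zmod2_cases (π (z h)) with h0 | h0
      · exact absurd h0 ((isUnit_iff _).1 hzu)
      · exact h0
    funext i
    have h3 := congrArg π (congrFun (hz h hh).1 i)
    simp only [Matrix.mulVec, dotProduct, Fin.sum_univ_two, Pi.smul_apply, smul_eq_mul, map_add,
      map_mul, hz1, one_mul] at h3 ⊢
    rw [← h3]
    simp only [hρ.red]

include hr hρ in
/-- **Theorem Z, step 2.** The deformation is dihedral. -/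
theorem dihedral [Finite A] (hXi : ∀ ξ, IsXi r T ξ → ∃ x, ∀ g, ξ g = (r g).1.mulVec x + x)
    (hw : (ρ g₃).1 * (ρ g₃).1 + (ρ g₃).1 + 1 = 0) (g : GQ) : DD r g₃ ρ g = 0 := by
  set I : Ideal A := Ideal.span {x | ∃ g i j, x = DD r g₃ ρ g i j} with hIdef
  have hI : ∀ g i j, DD r g₃ ρ g i j ∈ I := fun g i j => Ideal.subset_span ⟨g, i, j, rfl⟩
  have hIm : ∀ x ∈ I, π x = 0 := by
    intro x hx
    have h1 : I ≤ RingHom.ker π := by
      rw [hIdef, Ideal.span_le]
      rintro _ ⟨g, i, j, rfl⟩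
      exact pi_DD hr hρ g i j
    exact h1 hx
  have hbot : I = ⊥ := by
    by_contra hne
    obtain ⟨φ, hφ, x₀, hx₀, hx₀'⟩ := exists_fun π hne
    obtain ⟨hoff, hxi⟩ := isXi_phi hr hρ hw hI hIm hφ
    obtain ⟨x, hx⟩ := hXi _ hxi
    have h3 : DD r g₃ ρ g₃ = 0 := by
      unfold DD ee
      rw [Units.mul_inv_cancel_right, Units.mul_inv_cancel_right]
      simp
    have hx0 : x = 0 := by
      have h4 := hx g₃
      rw [h3] at h4
      apply no_fixed hr
      have h5 : (r g₃).1.mulVec x + x = 0 := by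
        rw [← h4]
        funext i
        fin_cases i
        · exact hφ.zero
        · exact hφ.zero
      funext i
      have h6 := congrFun h5 i
      rw [Pi.add_apply, Pi.zero_apply] at h6
      have : ∀ a b : ZMod 2, a + b = 0 → a = b := by decide
      exact this _ _ h6
    have hzero : ∀ g i j, φ (DD r g₃ ρ g i j) = 0 := by
      intro g i j
      have h4 := hx g
      rw [hx0, Matrix.mulVec_zero, add_zero] at h4
      have e01 : φ (DD r g₃ ρ g 0 1) = 0 := congrFun h4 0
      have e10 : φ (DD r g₃ ρ g 1 0) = 0 := congrFun h4 1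
      obtain ⟨o0, o1⟩ := hoff g
      rw [e01, e10, add_zero] at o0 o1
      fin_cases i <;> fin_cases j
      · exact o0
      · exact e01
      · exact e10
      · exact o1
    have hall : ∀ x ∈ I, φ x = 0 := by
      let J : Ideal A :=
        { carrier := {x | x ∈ I ∧ φ x = 0}
          add_mem' := fun {a b} ha hb => ⟨I.add_mem ha.1 hb.1, by
            rw [hφ.add _ ha.1 _ hb.1, ha.2, hb.2, add_zero]⟩
          zero_mem' := ⟨I.zero_mem, hφ.zero⟩
          smul_mem' := fun c x hx => ⟨I.mul_mem_left c hx.1, by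
            rw [smul_eq_mul, hφ.mul _ _ hx.1, hx.2, mul_zero]⟩ }
      have h4 : I ≤ J := by
        conv_lhs => rw [hIdef]
        rw [Ideal.span_le]
        rintro _ ⟨g, i, j, rfl⟩
        exact ⟨hI g i j, hzero g i j⟩
      exact fun x hx => (h4 hx).2
    exact hx₀' (hall x₀ hx₀)
  ext i j
  have := hI g i j
  rw [hbot] at this
  exact this

include hr hρ in
/-- Elements of inertia groups in the rotation subgroup act trivially. -/
theorem inertia_trivial (hw : (ρ g₃).1 * (ρ g₃).1 + (ρ g₃).1 + 1 = 0)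
    (hD : ∀ g, DD r g₃ ρ g = 0) {ℓ : ℕ} (hℓ : ℓ.Prime)
    {P : ValuationSubring (AlgebraicClosure ℚ)} (hP : P.LiesOverPrime ℓ) {g : GQ}
    (hg : g ∈ P.inertiaSubgroupIn ℚ) (he : ee r g₃ g = 0) : ρ g = 1 := by
  by_cases hT : ℓ ∈ T
  · obtain ⟨u, z, hu, hz, hzI⟩ := hρ.loc ℓ hT P hP
    have hgD : g ∈ P.decompositionSubgroup ℚ := by
      obtain ⟨τ, -, rfl⟩ := hg
      exact τ.2
    have hwb : ((ρ g₃).1.map π) * ((ρ g₃).1.map π) + ((ρ g₃).1.map π) + 1 = 0 := by
      rw [w_map hρ]; exact hr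
    obtain ⟨f, hf, -, hDg⟩ := loc_shape hr hρ hw hu (hz g hgD)
    have hτ1 : π (tt u (ρ g₃).1) = 1 := tt_unit hu hwb
    have hτu : IsUnit (tt u (ρ g₃).1) := by
      rw [isUnit_iff (π := π), hτ1]; decide
    rw [hD g, he, map_zero, add_zero] at hDg
    set τ := tt u (ρ g₃).1 with hτ
    have d01 : (0 : A) = (u 0 * u 0) * (f + f * f * τ) := by
      have := congrFun (congrFun hDg 0) 1
      rw [Matrix.add_apply, Matrix.smul_apply, Matrix.smul_apply, NN01, one01, smul_eq_mul,
          smul_eq_mul, Matrix.zero_apply] at this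
      rw [this]; ring
    have d10 : (0 : A) = (u 1 * u 1) * (f + f * f * τ) := by
      have := congrFun (congrFun hDg 1) 0
      rw [Matrix.add_apply, Matrix.smul_apply, Matrix.smul_apply, NN10, one10, smul_eq_mul,
          smul_eq_mul, Matrix.zero_apply] at this
      rw [this]; ring
    have d00 : (0 : A) = (u 0 * u 1) * (f + f * f * τ) + f * τ := by
      have := congrFun (congrFun hDg 0) 0
      rw [Matrix.add_apply, Matrix.smul_apply, Matrix.smul_apply, NN00, one00, smul_eq_mul,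
          smul_eq_mul, Matrix.zero_apply] at this
      rw [this]; ring
    have h1 : f + f * f * τ = 0 := by
      rcases hu with hu | hu
      · exact ((hu.mul hu).mul_right_eq_zero).1 d01.symm
      · exact ((hu.mul hu).mul_right_eq_zero).1 d10.symm
    rw [h1, mul_zero, zero_add] at d00
    have hf0 : f = 0 := (hτu.mul_left_eq_zero).1 d00.symm
    apply Units.ext
    rw [hf, hf0, hzI g hg, zero_smul, add_zero, one_smul, Units.val_one]
  · exact hρ.unr ℓ hℓ hT P hP g hg

end

end Fermat.Agent.ZT
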