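import Mathlib

/-!
Finite facts about `2 × 2` matrices over `𝔽₂` and a functional lemma for finite local rings with
residue field `𝔽₂` (Theorem Z, step 2).
-/

set_option autoImplicit false

namespace Fermat.Agent.ZT

open Matrix

/-- `2 × 2` matrices -/
abbrev M2 (R : Type*) := Matrix (Fin 2) (Fin 2) R

/-- the two elements of order three of `GL₂(𝔽₂)` -/
def A1 : M2 (ZMod 2) := !![0, 1; 1, 1]

/-- the two elements of order three of `GL₂(𝔽₂)` -/
def A2 : M2 (ZMod 2) := !![1, 1; 1, 0]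

theorem M2_ext {R : Type*} {X Y : M2 R} (h00 : X 0 0 = Y 0 0) (h01 : X 0 1 = Y 0 1)
    (h10 : X 1 0 = Y 1 0) (h11 : X 1 1 = Y 1 1) : X = Y := by
  ext i j
  fin_cases i <;> fin_cases j <;> assumption

theorem mul00 {R : Type*} [NonUnitalNonAssocSemiring R] (X Y : M2 R) :
    (X * Y) 0 0 = X 0 0 * Y 0 0 + X 0 1 * Y 1 0 := by
  rw [Matrix.mul_apply, Fin.sum_univ_two]

theorem mul01 {R : Type*} [NonUnitalNonAssocSemiring R] (X Y : M2 R) :
    (X * Y) 0 1 = X 0 0 * Y 0 1 + X 0 1 * Y 1 1 := by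
  rw [Matrix.mul_apply, Fin.sum_univ_two]

theorem mul10 {R : Type*} [NonUnitalNonAssocSemiring R] (X Y : M2 R) :
    (X * Y) 1 0 = X 1 0 * Y 0 0 + X 1 1 * Y 1 0 := by
  rw [Matrix.mul_apply, Fin.sum_univ_two]

theorem mul11 {R : Type*} [NonUnitalNonAssocSemiring R] (X Y : M2 R) :
    (X * Y) 1 1 = X 1 0 * Y 0 1 + X 1 1 * Y 1 1 := by
  rw [Matrix.mul_apply, Fin.sum_univ_two]

/-- entries of matrices -/
theorem eq_iff {R : Type*} {X Y : M2 R} :
    X = Y ↔ X 0 0 = Y 0 0 ∧ X 0 1 = Y 0 1 ∧ X 1 0 = Y 1 0 ∧ X 1 1 = Y 1 1 :=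
  ⟨fun h => by subst h; exact ⟨rfl, rfl, rfl, rfl⟩, fun h => M2_ext h.1 h.2.1 h.2.2.1 h.2.2.2⟩

theorem order_three {w : M2 (ZMod 2)} (h : w * w + w + 1 = 0) : w = A1 ∨ w = A2 := by
  rw [eq_iff, eq_iff]
  rw [eq_iff] at h
  simp only [Matrix.add_apply, mul00, mul01, mul10, mul11, Matrix.zero_apply,
    Matrix.one_apply_eq, Matrix.one_apply_ne (show (0 : Fin 2) ≠ 1 by decide),
    Matrix.one_apply_ne (show (1 : Fin 2) ≠ 0 by decide)] at h
  simp only [A1, A2, Matrix.of_apply, Matrix.cons_val', Matrix.cons_val_zero,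
    Matrix.cons_val_one, Matrix.cons_val_fin_one]
  generalize w 0 0 = a at *
  generalize w 0 1 = b at *
  generalize w 1 0 = c at *
  generalize w 1 1 = d at *
  revert a b c d
  decide

theorem order_three_add {X Y : M2 (ZMod 2)} (hX : X * X + X + 1 = 0) (hY : Y * Y + Y + 1 = 0) :
    ∃ e : ZMod 2, X = Y + e • 1 := by
  rcases order_three hX with rfl | rfl <;> rcases order_three hY with rfl | rfl
  · exact ⟨0, by decide⟩
  · exact ⟨1, by decide⟩
  · exact ⟨1, by decide⟩
  · exact ⟨0, by decide⟩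

/-- elements anticommuting with `w` -/
theorem off_of_comm {w X : M2 (ZMod 2)} (hw : w * w + w + 1 = 0) (h : w * X + X * w + X = 0) :
    X 0 0 = X 0 1 + X 1 0 ∧ X 1 1 = X 0 1 + X 1 0 := by
  rcases order_three hw with rfl | rfl <;>
  · rw [eq_iff] at h
    simp only [Matrix.add_apply, mul00, mul01, mul10, mul11, Matrix.zero_apply] at h
    simp only [A1, A2, Matrix.of_apply, Matrix.cons_val', Matrix.cons_val_zero,
      Matrix.cons_val_one, Matrix.cons_val_fin_one] at h
    generalize X 0 0 = a at *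
    generalize X 0 1 = b at *
    generalize X 1 0 = c at *
    generalize X 1 1 = d at *
    revert a b c d
    decide

/-- equivariance of `X ↦ (X₀₁, X₁₀)` on the off-diagonal part -/
theorem conj_off {m n X : M2 (ZMod 2)} (hmn : m * n = 1) (h0 : X 0 0 = X 0 1 + X 1 0)
    (h1 : X 1 1 = X 0 1 + X 1 0) :
    (m * X * n) 0 1 = m 0 0 * X 0 1 + m 0 1 * X 1 0 ∧
    (m * X * n) 1 0 = m 1 0 * X 0 1 + m 1 1 * X 1 0 := by
  have hn : n = m.adjugate := by
    have hd : m.det * n.det = 1 := by rw [← Matrix.det_mul, hmn, Matrix.det_one]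
    have hd1 : m.det = 1 := by
      generalize m.det = a at *
      generalize n.det = b at *
      revert a b
      decide
    have h2 : m.adjugate * m = 1 := by rw [Matrix.adjugate_mul, hd1, one_smul]
    calc n = (m.adjugate * m) * n := by rw [h2, one_mul]
      _ = m.adjugate := by rw [mul_assoc, hmn, mul_one]
  rw [eq_iff] at hmn
  subst hn
  simp only [mul00, mul01, mul10, mul11, Matrix.adjugate_fin_two, Matrix.of_apply,
    Matrix.cons_val', Matrix.cons_val_zero, Matrix.cons_val_one, Matrix.cons_val_fin_one,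
    Matrix.one_apply_eq, Matrix.one_apply_ne (show (0 : Fin 2) ≠ 1 by decide),
    Matrix.one_apply_ne (show (1 : Fin 2) ≠ 0 by decide)] at *
  rw [h0, h1]
  clear h0 h1
  generalize X 0 1 = x at *
  generalize X 1 0 = y at *
  generalize m 0 0 = a at *
  generalize m 0 1 = b at *
  generalize m 1 0 = c at *
  generalize m 1 1 = d at *
  revert a b c d x y
  decide

theorem no_fixed {w : M2 (ZMod 2)} (hw : w * w + w + 1 = 0) {x : Fin 2 → ZMod 2}
    (h : w.mulVec x = x) : x = 0 := by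
  have h0 := congrFun h 0
  have h1 := congrFun h 1
  simp only [Matrix.mulVec, dotProduct, Fin.sum_univ_two] at h0 h1
  have hx : x 0 = 0 ∧ x 1 = 0 := by
    rcases order_three hw with rfl | rfl <;>
    · simp only [A1, A2, Matrix.of_apply, Matrix.cons_val', Matrix.cons_val_zero,
        Matrix.cons_val_one, Matrix.cons_val_fin_one] at h0 h1
      generalize x 0 = a at *
      generalize x 1 = b at *
      revert a b
      decide
  funext i
  fin_cases i
  · exact hx.1
  · exact hx.2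

theorem trace_nil {w : M2 (ZMod 2)} (hw : w * w + w + 1 = 0) {u0 u1 : ZMod 2}
    (hu : u0 ≠ 0 ∨ u1 ≠ 0) :
    u0 * u1 * w 0 0 + u0 * u0 * w 1 0 + (u1 * u1 * w 0 1 + u1 * u0 * w 1 1) = 1 := by
  rcases order_three hw with rfl | rfl <;>
  · simp only [A1, A2, Matrix.of_apply, Matrix.cons_val', Matrix.cons_val_zero,
      Matrix.cons_val_one, Matrix.cons_val_fin_one]
    revert u0 u1
    decide

section functional

variable {A : Type*} [CommRing A]

/-- an `A`-semilinear functional on an ideal, with values in `𝔽₂` -/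
structure IsFun (π : A →+* ZMod 2) (I : Ideal A) (φ : A → ZMod 2) : Prop where
  add : ∀ x ∈ I, ∀ y ∈ I, φ (x + y) = φ x + φ y
  mul : ∀ a, ∀ x ∈ I, φ (a * x) = π a * φ x

theorem zmod2_cases (a : ZMod 2) : a = 0 ∨ a = 1 := by
  revert a; decide

theorem exists_fun [IsLocalRing A] [IsNoetherianRing A] (π : A →+* ZMod 2) [IsLocalHom π]
    {I : Ideal A} (hI : I ≠ ⊥) : ∃ φ : A → ZMod 2, IsFun π I φ ∧ ∃ x ∈ I, φ x ≠ 0 := by
  classical
  have hm : ∀ a, π a = 0 ↔ a ∈ IsLocalRing.maximalIdeal A := by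
    intro a
    rw [IsLocalRing.mem_maximalIdeal, mem_nonunits_iff]
    constructor
    · intro h hu
      have := hu.map π
      rw [h] at this
      exact not_isUnit_zero this
    · intro h
      by_contra h0
      apply h
      apply (isUnit_map_iff π a).1
      exact IsUnit.mk0 _ h0
  have h2 : (2 : A) ∈ IsLocalRing.maximalIdeal A := by
    rw [← hm, map_ofNat]
    rfl
  obtain ⟨P, hP, hmax⟩ : ∃ P : Ideal A, P < I ∧ ∀ J : Ideal A, P < J → ¬ J < I := by
    have hne : ({J : Ideal A | J < I}).Nonempty := ⟨⊥, bot_lt_iff_ne_bot.2 hI⟩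
    obtain ⟨P, hP, h⟩ := WellFounded.has_min (wellFounded_gt (α := Ideal A)) _ hne
    exact ⟨P, hP, fun J hJ hJ' => h J hJ' hJ⟩
  have hsup : ∀ J : Ideal A, J ≤ I → ¬ J ≤ P → P ⊔ J = I := by
    intro J hJ hJP
    have h1 : P < P ⊔ J := lt_of_le_of_ne le_sup_left (fun h => hJP (by rw [h]; exact le_sup_right))
    by_contra hne
    exact hmax _ h1 (lt_of_le_of_ne (sup_le hP.le hJ) hne)
  have hmI : IsLocalRing.maximalIdeal A • I ≤ P := by
    by_contra hcon
    have h1 := hsup _ Submodule.smul_le_right hcon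
    have h3 : I ≤ P := by
      refine Submodule.le_of_le_smul_of_le_jacobson_bot (IsNoetherian.noetherian I)
        (IsLocalRing.maximalIdeal_le_jacobson _) h1.ge
    exact absurd h3 (not_le_of_gt hP)
  have hmI' : ∀ a ∈ IsLocalRing.maximalIdeal A, ∀ x ∈ I, a * x ∈ P := fun a ha x hx =>
    hmI (Submodule.smul_mem_smul ha hx)
  have hadd : ∀ x ∈ I, ∀ y ∈ I, x ∉ P → y ∉ P → x + y ∈ P := by
    intro x hx y hy hxP hyP
    have h1 : P ⊔ Ideal.span {x} = I := hsup _ ((Ideal.span_singleton_le_iff_mem I).2 hx)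
      (fun h => hxP ((Ideal.span_singleton_le_iff_mem P).1 h))
    rw [← h1] at hy
    obtain ⟨p, hp, b, hb, rfl⟩ := Submodule.mem_sup.1 hy
    obtain ⟨a, rfl⟩ := Ideal.mem_span_singleton'.1 hb
    rcases zmod2_cases (π a) with ha | ha
    · exfalso
      exact hyP (P.add_mem hp (hmI' a ((hm a).1 ha) x hx))
    · have h3 : a - 1 ∈ IsLocalRing.maximalIdeal A := by
        rw [← hm, map_sub, ha, map_one, sub_self]
      have h4 : x + (p + a * x) = p + (a - 1) * x + 2 * x := by ring
      rw [h4]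
      exact P.add_mem (P.add_mem hp (hmI' _ h3 x hx)) (hmI' _ h2 x hx)
  obtain ⟨x₀, hx₀, hx₀P⟩ := Set.exists_of_ssubset hP
  refine ⟨fun x => if x ∈ P then 0 else 1, ⟨fun x hx y hy => ?_, fun a x hx => ?_⟩, x₀, hx₀, ?_⟩
  · by_cases h1 : x ∈ P
    · by_cases h3 : y ∈ P
      · simp [h1, h3, P.add_mem h1 h3]
      · have h4 : x + y ∉ P := fun h => h3 ((P.add_mem_iff_right h1).1 h)
        simp [h1, h3, h4]
    · by_cases h3 : y ∈ P
      · have h4 : x + y ∉ P := fun h => h1 ((P.add_mem_iff_left h3).1 h)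
        simp [h1, h3, h4]
      · have h4 := hadd x hx y hy h1 h3
        simp only [h1, h3, h4, if_true, if_false]
        decide
  · rcases zmod2_cases (π a) with ha | ha
    · have h1 := hmI' a ((hm a).1 ha) x hx
      simp [h1, ha]
    · have hu : IsUnit a := by
        rw [← IsLocalRing.notMem_maximalIdeal, ← hm, ha]
        decide
      have h1 : a * x ∈ P ↔ x ∈ P := by
        constructor
        · intro h
          obtain ⟨b, hb⟩ := hu.exists_left_inv
          have := P.mul_mem_left b h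
          rwa [← mul_assoc, hb, one_mul] at this
        · exact P.mul_mem_left a
      simp [h1, ha]
  · have : x₀ ∉ P := hx₀P
    simp [this]

end functional

end Fermat.Agent.ZT
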