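import Fermat.Agent.ZT.Fin

/-!
Matrix computations for Theorem Z, step 2.
-/

set_option autoImplicit false

namespace Fermat.Agent.ZT

open Matrix

section alg

variable {A : Type*} [CommRing A] (h2 : (2 : A) = 0)

theorem two_eq_zero (A : Type*) [CommRing A] [Algebra (ZMod 2) A] : (2 : A) = 0 := by
  have h : ((2 : ZMod 2)) = 0 := by decide
  have := congrArg (algebraMap (ZMod 2) A) h
  rwa [map_ofNat, map_zero] at this

/-- the nilpotent matrix with image the line spanned by `u` -/
def NN (u : Fin 2 → A) : M2 A := !![u 0 * u 1, u 0 * u 0; u 1 * u 1, u 1 * u 0]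

@[simp] theorem NN00 (u : Fin 2 → A) : NN u 0 0 = u 0 * u 1 := rfl
@[simp] theorem NN01 (u : Fin 2 → A) : NN u 0 1 = u 0 * u 0 := rfl
@[simp] theorem NN10 (u : Fin 2 → A) : NN u 1 0 = u 1 * u 1 := rfl
@[simp] theorem NN11 (u : Fin 2 → A) : NN u 1 1 = u 1 * u 0 := rfl

theorem one01 : (1 : M2 A) 0 1 = 0 := Matrix.one_apply_ne (by decide)
theorem one10 : (1 : M2 A) 1 0 = 0 := Matrix.one_apply_ne (by decide)
theorem one00 : (1 : M2 A) 0 0 = 1 := Matrix.one_apply_eq _
theorem one11 : (1 : M2 A) 1 1 = 1 := Matrix.one_apply_eq _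

include h2 in
theorem loc_form {m : M2 A} (hm : IsUnit m.det) {u : Fin 2 → A} (hu : IsUnit (u 0) ∨ IsUnit (u 1))
    {z : A} (h1 : m.mulVec u = z • u) (hd : m.det = z ^ 2) :
    IsUnit z ∧ ∃ f : A, m = z • (1 + f • NN u) := by
  have hz : IsUnit z := by
    rw [hd] at hm
    exact (isUnit_pow_iff two_ne_zero).1 hm
  refine ⟨hz, ?_⟩
  obtain ⟨zi, hzi⟩ := hz.exists_right_inv
  have e0 := congrFun h1 0
  have e1 := congrFun h1 1
  simp only [Matrix.mulVec, dotProduct, Fin.sum_univ_two, Pi.smul_apply, smul_eq_mul] at e0 e1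
  rw [Matrix.det_fin_two] at hd
  rcases hu with hu | hu
  · obtain ⟨v, hv⟩ := hu.exists_right_inv
    have hd' : m 1 1 = z + m 0 1 * (v * u 1) := by
      have h3 : z * (m 1 1 * u 0 - m 0 1 * u 1 - z * u 0) = 0 := by
        linear_combination (u 0) * hd - (m 1 1) * e0 + (m 0 1) * e1
      have h4 : m 1 1 * u 0 - m 0 1 * u 1 - z * u 0 = 0 := by
        have := congrArg (fun t => zi * t) h3
        simp only [mul_zero] at this
        linear_combination this - (m 1 1 * u 0 - m 0 1 * u 1 - z * u 0) * hzi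
      linear_combination v * h4 - (m 1 1 - z) * hv
    refine ⟨zi * m 0 1 * (v * v), M2_ext ?_ ?_ ?_ ?_⟩
    · simp only [Matrix.smul_apply, Matrix.add_apply, one00, NN00, smul_eq_mul]
      linear_combination v * e0 - (m 0 0 - z) * hv - (m 0 1 * v * v * u 0 * u 1) * hzi -
        (m 0 1 * v * u 1) * hv - (m 0 1 * v * u 1) * h2
    · simp only [Matrix.smul_apply, Matrix.add_apply, one01, NN01, smul_eq_mul]
      linear_combination -(m 0 1 * v * v * u 0 * u 0) * hzi - (m 0 1 * v * u 0 + m 0 1) * hv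
    · simp only [Matrix.smul_apply, Matrix.add_apply, one10, NN10, smul_eq_mul]
      linear_combination v * e1 - (m 1 0) * hv - (m 0 1 * v * v * u 1 * u 1) * hzi -
        (v * u 1) * hd' - (m 0 1 * v * v * u 1 * u 1) * h2
    · simp only [Matrix.smul_apply, Matrix.add_apply, one11, NN11, smul_eq_mul]
      linear_combination hd' - (m 0 1 * v * v * u 0 * u 1) * hzi - (m 0 1 * v * u 1) * hv
  · obtain ⟨v, hv⟩ := hu.exists_right_inv
    have hd' : m 0 0 = z + m 1 0 * (v * u 0) := by
      have h3 : z * (m 0 0 * u 1 - m 1 0 * u 0 - z * u 1) = 0 := by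
        linear_combination (u 1) * hd - (m 0 0) * e1 + (m 1 0) * e0
      have h4 : m 0 0 * u 1 - m 1 0 * u 0 - z * u 1 = 0 := by
        have := congrArg (fun t => zi * t) h3
        simp only [mul_zero] at this
        linear_combination this - (m 0 0 * u 1 - m 1 0 * u 0 - z * u 1) * hzi
      linear_combination v * h4 - (m 0 0 - z) * hv
    refine ⟨zi * m 1 0 * (v * v), M2_ext ?_ ?_ ?_ ?_⟩
    · simp only [Matrix.smul_apply, Matrix.add_apply, one00, NN00, smul_eq_mul]
      linear_combination hd' - (m 1 0 * v * v * u 0 * u 1) * hzi - (m 1 0 * v * u 0) * hv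
    · simp only [Matrix.smul_apply, Matrix.add_apply, one01, NN01, smul_eq_mul]
      linear_combination v * e0 - (m 0 1) * hv - (m 1 0 * v * v * u 0 * u 0) * hzi -
        (v * u 0) * hd' - (m 1 0 * v * v * u 0 * u 0) * h2
    · simp only [Matrix.smul_apply, Matrix.add_apply, one10, NN10, smul_eq_mul]
      linear_combination -(m 1 0 * v * v * u 1 * u 1) * hzi - (m 1 0 * v * u 1 + m 1 0) * hv
    · simp only [Matrix.smul_apply, Matrix.add_apply, one11, NN11, smul_eq_mul]
      linear_combination v * e1 - (m 1 1 - z) * hv - (m 1 0 * v * v * u 0 * u 1) * hzi -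
        (m 1 0 * v * u 0) * hv - (m 1 0 * v * u 0) * h2

/-- the trace of `NN u * w` -/
def tt (u : Fin 2 → A) (w : M2 A) : A :=
  u 0 * u 1 * w 0 0 + u 0 * u 0 * w 1 0 + (u 1 * u 1 * w 0 1 + u 1 * u 0 * w 1 1)

include h2 in
theorem loc_D {w : M2 A} (hw : w 0 0 + w 1 1 = 1) {m : M2 A} {n : M2 A} (hmn : m * n = 1)
    {u : Fin 2 → A} {z f e : A} (hm : m = z • (1 + f • NN u)) :
    m * w * n - w - e • 1 = (f + f * f * tt u w) • NN u + (f * tt u w + e) • (1 : M2 A) := by
  set Y : M2 A := (f + f * f * tt u w) • NN u + (f * tt u w + e) • (1 : M2 A) with hY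
  have h4 : (4 : A) = 0 := by linear_combination 2 * h2
  have key : (Y + w + e • 1) * m = m * w := by
    rw [hm, mul_smul_comm, smul_mul_assoc]
    congr 1
    rw [hY]
    apply M2_ext
    · simp only [mul00, Matrix.add_apply, Matrix.smul_apply, smul_eq_mul, NN00, NN01, NN10, NN11,
        one00, one01, one10, one11, tt]
      linear_combination (norm := (ring_nf; simp only [h2, h4, mul_zero, add_zero, zero_add, sub_zero, neg_zero])) (-(f * u 0 * u 1)) * hw
    · simp only [mul01, Matrix.add_apply, Matrix.smul_apply, smul_eq_mul, NN00, NN01, NN10, NN11,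
        one00, one01, one10, one11, tt]
      linear_combination (norm := (ring_nf; simp only [h2, h4, mul_zero, add_zero, zero_add, sub_zero, neg_zero])) (-(f * u 0 * u 0)) * hw
    · simp only [mul10, Matrix.add_apply, Matrix.smul_apply, smul_eq_mul, NN00, NN01, NN10, NN11,
        one00, one01, one10, one11, tt]
      linear_combination (norm := (ring_nf; simp only [h2, h4, mul_zero, add_zero, zero_add, sub_zero, neg_zero])) (-(f * u 1 * u 1)) * hw
    · simp only [mul11, Matrix.add_apply, Matrix.smul_apply, smul_eq_mul, NN00, NN01, NN10, NN11,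
        one00, one01, one10, one11, tt]
      linear_combination (norm := (ring_nf; simp only [h2, h4, mul_zero, add_zero, zero_add, sub_zero, neg_zero])) (-(f * u 0 * u 1)) * hw
  have h3 : m * w * n = Y + w + e • 1 := by rw [← key, mul_assoc, hmn, mul_one]
  rw [h3]
  abel

end alg

end Fermat.Agent.ZT
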